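import Mathlib

/-!
# S16 / UBb / ArithB (helper1): the pure power-series arithmetic behind (U-b)

`a ≡ 1 mod 9` (an integer sequence with `9 ∣ a 0 - 1`, `9 ∣ a n` for `n ≥ 1`), `A ∈ ℤ⟦q⟧` with
`A = q + …` (for `E₄ = 1 + 240 A`), `p ≠ 3` a prime.  Then
`I = E₄(q^p) - a² = 3 I'` and `T = E₄ - p² (U a)² = 3 T'` (`U a = ∑ a_{pn} qⁿ`) with
`3 ∣ I'_n` for `n < p`, `3 ∤ I'_p`, `3 ∤ T'_1`.
-/

set_option autoImplicit false

namespace Fermat.Agent.S16.UBb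

open PowerSeries

/-- A sequence `≡ 1 mod M` is `1 + M g`. -/
theorem exists_eq_one_add (M : ℤ) (a : ℕ → ℤ) (ha0 : M ∣ a 0 - 1)
    (ha : ∀ n, 1 ≤ n → M ∣ a n) : ∃ g : PowerSeries ℤ, PowerSeries.mk a = 1 + M • g := by
  refine ⟨PowerSeries.mk fun n => if n = 0 then (a 0 - 1) / M else a n / M, ?_⟩
  ext n
  rw [map_add, map_zsmul, coeff_mk, coeff_mk, coeff_one, smul_eq_mul]
  by_cases hn : n = 0
  · subst hn
    rw [if_pos rfl, if_pos rfl, Int.mul_ediv_cancel' ha0]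
    ring
  · rw [if_neg hn, if_neg hn, Int.mul_ediv_cancel' (ha n (Nat.one_le_iff_ne_zero.mpr hn))]
    ring

theorem arith_b {p : ℕ} (hp : p.Prime) (hp3 : p ≠ 3) (a : ℕ → ℤ) (A : PowerSeries ℤ)
    (hA0 : A.coeff 0 = 0) (hA1 : A.coeff 1 = 1)
    (ha0 : (9 : ℤ) ∣ a 0 - 1) (ha : ∀ n, 1 ≤ n → (9 : ℤ) ∣ a n) :
    ∃ I' T' : PowerSeries ℤ,
      PowerSeries.expand p hp.ne_zero (1 + (240 : ℤ) • A) - (PowerSeries.mk a) ^ 2 = (3 : ℤ) • I' ∧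
      (1 + (240 : ℤ) • A) - ((p : ℤ) ^ 2) • (PowerSeries.mk fun n => a (p * n)) ^ 2
        = (3 : ℤ) • T' ∧
      (∀ n < p, (3 : ℤ) ∣ I'.coeff n) ∧ ¬ (3 : ℤ) ∣ I'.coeff p ∧ ¬ (3 : ℤ) ∣ T'.coeff 1 := by
  obtain ⟨g, hg⟩ := exists_eq_one_add 9 a ha0 ha
  obtain ⟨u, hu⟩ := exists_eq_one_add 9 (fun n => a (p * n)) (by simpa using ha0)
    (fun n hn => ha _ (Nat.mul_pos hp.pos hn))
  -- `p² ≡ 1 mod 3`
  obtain ⟨e₀, he₀⟩ : ∃ e₀ : ℤ, (p : ℤ) ^ 2 = 3 * e₀ + 1 := by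
    have h3 : ¬ (3 : ℕ) ∣ p := fun h => hp3 ((Nat.prime_dvd_prime_iff_eq Nat.prime_three hp).mp h).symm
    have hmod : p % 3 = 1 ∨ p % 3 = 2 := by omega
    refine ⟨((p : ℤ) ^ 2 - 1) / 3, ?_⟩
    have hdvd : (3 : ℤ) ∣ (p : ℤ) ^ 2 - 1 := by
      have h1 : ((p : ℤ) ^ 2 - 1) % 3 = 0 := by
        have hp' : (p : ℤ) % 3 = 1 ∨ (p : ℤ) % 3 = 2 := by omega
        rcases hp' with h | h
        · simp [pow_two, Int.sub_emod, Int.mul_emod, h]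
        · simp [pow_two, Int.sub_emod, Int.mul_emod, h]
      exact Int.dvd_of_emod_eq_zero h1
    rw [Int.mul_ediv_cancel' hdvd]
    ring
  refine ⟨(80 : ℤ) • PowerSeries.expand p hp.ne_zero A - (3 : ℤ) • ((2 : ℤ) • g + (9 : ℤ) • g ^ 2),
    PowerSeries.C (-e₀) + (80 : ℤ) • A
      - (3 : ℤ) • (((2 : ℤ) • u + (9 : ℤ) • u ^ 2) + e₀ • ((6 : ℤ) • u + (27 : ℤ) • u ^ 2)),
    ?_, ?_, ?_, ?_, ?_⟩
  · rw [hg, map_add, map_one, map_zsmul]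
    simp only [zsmul_eq_mul]
    push_cast
    ring
  · rw [hu, he₀]
    simp only [zsmul_eq_mul, map_neg]
    have hC : (PowerSeries.C e₀ : PowerSeries ℤ) = (e₀ : PowerSeries ℤ) := eq_intCast _ e₀
    rw [hC]
    push_cast
    ring
  · intro n hn
    rw [map_sub, map_zsmul, map_zsmul, smul_eq_mul, smul_eq_mul, PowerSeries.coeff_expand]
    have h0 : (if p ∣ n then A.coeff (n / p) else 0) = 0 := by
      split_ifs with h
      · have hn0 : n = 0 := Nat.eq_zero_of_dvd_of_lt h hn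
        rw [hn0, Nat.zero_div, hA0]
      · rfl
    rw [h0, mul_zero, zero_sub]
    exact (dvd_mul_right _ _).neg_right
  · rw [map_sub, map_zsmul, map_zsmul, smul_eq_mul, smul_eq_mul, PowerSeries.coeff_expand,
      if_pos dvd_rfl, Nat.div_self hp.pos, hA1]
    intro h
    generalize (PowerSeries.coeff p) ((2 : ℤ) • g + (9 : ℤ) • g ^ 2) = X at h
    omega
  · rw [map_sub, map_add, map_zsmul, map_zsmul, smul_eq_mul, smul_eq_mul, hA1,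
      PowerSeries.coeff_C, if_neg one_ne_zero]
    intro h
    generalize (PowerSeries.coeff 1)
      ((2 : ℤ) • u + (9 : ℤ) • u ^ 2 + e₀ • ((6 : ℤ) • u + (27 : ℤ) • u ^ 2)) = X at h
    omega


/-- Variant of `arith_b` for a general series `1 + 3 B` (`B₀ = 0`, `3 ∤ B₁`) and `p ≠ 0`, `3 ∤ p`. -/
theorem arith_b_gen {p : ℕ} (hp : p ≠ 0) (hp3 : ¬ 3 ∣ p) (a : ℕ → ℤ) (B : PowerSeries ℤ)
    (hB0 : B.coeff 0 = 0) (hB1 : ¬ (3 : ℤ) ∣ B.coeff 1)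
    (ha0 : (9 : ℤ) ∣ a 0 - 1) (ha : ∀ n, 1 ≤ n → (9 : ℤ) ∣ a n) :
    ∃ I' T' : PowerSeries ℤ,
      PowerSeries.expand p hp (1 + (3 : ℤ) • B) - (PowerSeries.mk a) ^ 2 = (3 : ℤ) • I' ∧
      (1 + (3 : ℤ) • B) - ((p : ℤ) ^ 2) • (PowerSeries.mk fun n => a (p * n)) ^ 2
        = (3 : ℤ) • T' ∧
      (∀ n < p, (3 : ℤ) ∣ I'.coeff n) ∧ ¬ (3 : ℤ) ∣ I'.coeff p ∧ ¬ (3 : ℤ) ∣ T'.coeff 1 := by
  obtain ⟨g, hg⟩ := exists_eq_one_add 9 a ha0 ha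
  obtain ⟨u, hu⟩ := exists_eq_one_add 9 (fun n => a (p * n)) (by simpa using ha0)
    (fun n hn => ha _ (Nat.mul_pos (Nat.pos_of_ne_zero hp) hn))
  obtain ⟨e₀, he₀⟩ : ∃ e₀ : ℤ, (p : ℤ) ^ 2 = 3 * e₀ + 1 := by
    have hmod : p % 3 = 1 ∨ p % 3 = 2 := by omega
    refine ⟨((p : ℤ) ^ 2 - 1) / 3, ?_⟩
    have hdvd : (3 : ℤ) ∣ (p : ℤ) ^ 2 - 1 := by
      have h1 : ((p : ℤ) ^ 2 - 1) % 3 = 0 := by
        have hp' : (p : ℤ) % 3 = 1 ∨ (p : ℤ) % 3 = 2 := by omega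
        rcases hp' with h | h
        · simp [pow_two, Int.sub_emod, Int.mul_emod, h]
        · simp [pow_two, Int.sub_emod, Int.mul_emod, h]
      exact Int.dvd_of_emod_eq_zero h1
    rw [Int.mul_ediv_cancel' hdvd]
    ring
  refine ⟨PowerSeries.expand p hp B - (3 : ℤ) • ((2 : ℤ) • g + (9 : ℤ) • g ^ 2),
    PowerSeries.C (-e₀) + B
      - (3 : ℤ) • (((2 : ℤ) • u + (9 : ℤ) • u ^ 2) + e₀ • ((6 : ℤ) • u + (27 : ℤ) • u ^ 2)),
    ?_, ?_, ?_, ?_, ?_⟩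
  · rw [hg, map_add, map_one, map_zsmul]
    simp only [zsmul_eq_mul]
    push_cast
    ring
  · rw [hu, he₀]
    simp only [zsmul_eq_mul, map_neg]
    have hC : (PowerSeries.C e₀ : PowerSeries ℤ) = (e₀ : PowerSeries ℤ) := eq_intCast _ e₀
    rw [hC]
    push_cast
    ring
  · intro n hn
    rw [map_sub, map_zsmul, smul_eq_mul, PowerSeries.coeff_expand]
    have h0 : (if p ∣ n then B.coeff (n / p) else 0) = 0 := by
      split_ifs with h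
      · have hn0 : n = 0 := Nat.eq_zero_of_dvd_of_lt h hn
        rw [hn0, Nat.zero_div, hB0]
      · rfl
    rw [h0, zero_sub]
    exact (dvd_mul_right _ _).neg_right
  · rw [map_sub, map_zsmul, smul_eq_mul, PowerSeries.coeff_expand,
      if_pos dvd_rfl, Nat.div_self (Nat.pos_of_ne_zero hp)]
    intro h
    generalize (PowerSeries.coeff p) ((2 : ℤ) • g + (9 : ℤ) • g ^ 2) = X at h
    omega
  · rw [map_sub, map_add, map_zsmul, smul_eq_mul, PowerSeries.coeff_C, if_neg one_ne_zero]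
    intro h
    generalize (PowerSeries.coeff 1)
      ((2 : ℤ) • u + (9 : ℤ) • u ^ 2 + e₀ • ((6 : ℤ) • u + (27 : ℤ) • u ^ 2)) = X at h
    omega

end Fermat.Agent.S16.UBb
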