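import Mathlib
import Fermat.Agent.S16.UBb.ArithB

/-!
# S16 / UBb / ArithA (helper1): the pure power-series arithmetic behind (U-a)

`a ≡ 1 mod ℓ` (`ℓ ∣ a 0 - 1`, `ℓ ∣ a n` for `n ≥ 1`), `e 0 = 1`, `ℓ ∤ e 1`, `p ≠ 0`.  Then
`I = e(q^p) - a^r` has `ℓ ∣ I_n` for `n < p` and `ℓ ∤ I_p`, and `T = e - c (U a)^r`
(`U a = ∑ a_{pn} qⁿ`, `c` any integer) has `ℓ ∤ T_1`.
-/

set_option autoImplicit false

namespace Fermat.Agent.S16.UBb

open PowerSeries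

/-- Powers of `1 + M g` are of the form `1 + M g'`. -/
theorem exists_pow_eq_one_add (M : ℤ) (g : PowerSeries ℤ) (r : ℕ) :
    ∃ g' : PowerSeries ℤ, (1 + M • g) ^ r = 1 + M • g' := by
  induction r with
  | zero => exact ⟨0, by simp⟩
  | succ r ih =>
    obtain ⟨g', hg'⟩ := ih
    refine ⟨g' + g + M • (g' * g), ?_⟩
    rw [pow_succ, hg']
    simp only [zsmul_eq_mul]
    ring

theorem arith_a {p : ℕ} (hp : p ≠ 0) (ℓ : ℤ) (r : ℕ) (c : ℤ) (a e : ℕ → ℤ)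
    (ha0 : ℓ ∣ a 0 - 1) (ha : ∀ n, 1 ≤ n → ℓ ∣ a n) (he0 : e 0 = 1) (he1 : ¬ ℓ ∣ e 1) :
    (∀ n < p, ℓ ∣ (PowerSeries.expand p hp (PowerSeries.mk e)
        - (PowerSeries.mk a) ^ r).coeff n) ∧
      ¬ ℓ ∣ (PowerSeries.expand p hp (PowerSeries.mk e) - (PowerSeries.mk a) ^ r).coeff p ∧
      ¬ ℓ ∣ (PowerSeries.mk e
        - PowerSeries.C c * (PowerSeries.mk fun n => a (p * n)) ^ r).coeff 1 := by
  obtain ⟨g, hg⟩ := exists_eq_one_add ℓ a ha0 ha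
  obtain ⟨u, hu⟩ := exists_eq_one_add ℓ (fun n => a (p * n)) (by simpa using ha0)
    (fun n hn => ha _ (Nat.mul_pos (Nat.pos_of_ne_zero hp) hn))
  obtain ⟨g', hg'⟩ := exists_pow_eq_one_add ℓ g r
  obtain ⟨u', hu'⟩ := exists_pow_eq_one_add ℓ u r
  rw [hg, hg', hu, hu']
  refine ⟨fun n hn => ?_, ?_, ?_⟩
  · rw [map_sub, map_add, map_zsmul, smul_eq_mul, PowerSeries.coeff_expand, coeff_mk, coeff_one]
    by_cases hn0 : n = 0
    · subst hn0
      simp [he0]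
    · have hpn : ¬ p ∣ n := fun h => hn0 (Nat.eq_zero_of_dvd_of_lt h hn)
      rw [if_neg hpn, if_neg hn0]
      simp
  · rw [map_sub, map_add, map_zsmul, smul_eq_mul, PowerSeries.coeff_expand, coeff_mk, coeff_one,
      if_pos dvd_rfl, Nat.div_self (Nat.pos_of_ne_zero hp), if_neg hp]
    intro h
    apply he1
    have h2 := dvd_add h (dvd_mul_right ℓ (g'.coeff p))
    have e1 : e 1 - (0 + ℓ * (coeff p) g') + ℓ * (coeff p) g' = e 1 := by ring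
    rwa [e1] at h2
  · rw [map_sub, coeff_mk, PowerSeries.coeff_C_mul, map_add, map_zsmul, smul_eq_mul, coeff_one,
      if_neg one_ne_zero]
    intro h
    apply he1
    have h2 := dvd_add h (dvd_mul_right ℓ (c * u'.coeff 1))
    have e1 : e 1 - c * (0 + ℓ * (coeff 1) u') + ℓ * (c * (coeff 1) u') = e 1 := by ring
    rwa [e1] at h2

end Fermat.Agent.S16.UBb
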